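import Fermat.Agent.S56.P3.Spec

/-!
# S56 / P3 : H1ADAPT (subtask 401)

`h1 : H1CoreStatement → SpanDeltaStatement → H1VanishStatement`.

Transport of the matrix core (`H1CoreStatement`, `ρ : G →* M₂(k)`) to the abstract form
(`ρ : Γ →* End V`, `dim V = 2`) through a basis `b : Basis (Fin 2) k V` and the algebra
isomorphism `LinearMap.toMatrixAlgEquiv b : End V ≃ₐ[k] M₂(k)`.
-/

set_option autoImplicit false

namespace Fermat.Agent.S56.P3.H793

open Fermat.Agent.S56.P3

/-- In a field of characteristic `p = 5`, an element of multiplicative order `p - 1 = 4` is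
neither `1` nor `-1`. -/
lemma ne_one_ne_neg_one_of_orderOf {k : Type} [Field k] {p : ℕ} (hp5 : p = 5) {d : k}
    (hd : orderOf d = p - 1) : d ≠ 1 ∧ d ≠ -1 := by
  subst hp5
  refine ⟨?_, ?_⟩
  · intro h1
    rw [h1, orderOf_one] at hd
    omega
  · intro h1
    rw [h1] at hd
    have h2 : orderOf (-1 : k) ∣ 2 := orderOf_dvd_of_pow_eq_one (by norm_num)
    have h3 := Nat.le_of_dvd (by norm_num) h2
    omega

/-- The image of a spanning family under an algebra equivalence spans. -/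
lemma span_range_algEquiv_eq_top {k : Type} [Field k] {A B : Type} [Ring A] [Ring B]
    [Algebra k A] [Algebra k B] (e : A ≃ₐ[k] B) {ι : Type} (f : ι → A)
    (h : Submodule.span k (Set.range f) = ⊤) :
    Submodule.span k (Set.range fun i => e (f i)) = ⊤ := by
  have h1 : (Set.range fun i => e (f i)) = (e.toLinearEquiv : A →ₗ[k] B) '' Set.range f := by
    ext x
    constructor
    · rintro ⟨i, rfl⟩
      exact ⟨f i, ⟨i, rfl⟩, rfl⟩
    · rintro ⟨_, ⟨i, rfl⟩, rfl⟩
      exact ⟨i, rfl⟩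
  rw [h1, Submodule.span_image, h, Submodule.map_top]
  exact LinearEquiv.range e.toLinearEquiv

/-- **H1ADAPT**: the matrix core and the Burnside span statement give the vanishing of
`H¹` in the abstract `End V` form. -/
theorem h1 (hc : H1CoreStatement) (hs : SpanDeltaStatement) : H1VanishStatement := by
  intro k _ _ V _ _ _ Γ _ ρ p _ hp2 hT Δ _ hcyc hdet hord ψ hψ hvan
  classical
  let b : Module.Basis (Fin 2) k V := Module.finBasisOfFinrankEq k V hT.finrank_eq
  let e : Module.End k V ≃ₐ[k] Matrix (Fin 2) (Fin 2) k := LinearMap.toMatrixAlgEquiv b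
  have he_det : ∀ f : Module.End k V, (e f).det = LinearMap.det f :=
    fun f => LinearMap.det_toMatrix b f
  have he_tr : ∀ f : Module.End k V, (e f).trace = LinearMap.trace k V f :=
    fun f => (LinearMap.trace_eq_matrix_trace k b f).symm
  let ρ' : Γ →* Matrix (Fin 2) (Fin 2) k :=
    ((e : Module.End k V →ₐ[k] Matrix (Fin 2) (Fin 2) k) :
      Module.End k V →* Matrix (Fin 2) (Fin 2) k).comp ρ
  have hρ' : ∀ g, ρ' g = e (ρ g) := fun g => rfl
  have hdet' : ∀ h ∈ Δ, (ρ' h).det = 1 := by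
    intro h hh
    rw [hρ', he_det]
    exact hdet h hh
  have hspan' : Submodule.span k (Set.range fun h : Δ => ρ' (h : Γ)) = ⊤ :=
    span_range_algEquiv_eq_top e (fun δ : Δ => ρ (δ : Γ)) (hs k V Γ ρ p hp2 hT Δ hcyc)
  have h5 : p = 5 → ∃ g : Γ, (ρ' g).det ≠ 1 ∧ (ρ' g).det ≠ -1 := by
    intro hp5
    obtain ⟨γ, hγ⟩ := hord
    refine ⟨γ, ?_⟩
    rw [hρ', he_det]
    exact ne_one_ne_neg_one_of_orderOf hp5 hγ
  have htr' : ∀ g, (e (ψ g)).trace = 0 := by
    intro g
    rw [he_tr]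
    exact hψ.trace_zero g
  have hcoc' : ∀ g h, e (ψ (g * h)) =
      e (ψ g) + (ρ' g).det • (ρ' g * e (ψ h) * ρ' g⁻¹) := by
    intro g h
    rw [hψ.map_mul, map_add, hρ', hρ', he_det]
    simp only [twEnd, map_smul, map_mul]
  have hvan' : ∀ h ∈ Δ, ρ' h = 1 → e (ψ h) = 0 := by
    intro h hh h1
    have h2 : ρ h = 1 := e.injective (by rw [← hρ', h1, map_one])
    rw [hvan h hh h2, map_zero]
  obtain ⟨m, hm0, hm⟩ :=
    hc k p hp2 hT.char_p Γ ρ' Δ hdet' hspan' h5 (fun g => e (ψ g)) htr' hcoc' hvan'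
  refine ⟨e.symm m, ?_, ?_⟩
  · rw [← he_tr, AlgEquiv.apply_symm_apply]
    exact hm0
  · intro g
    apply e.injective
    have hmg : e (ψ g) = (ρ' g).det • (ρ' g * m * ρ' g⁻¹) - m := hm g
    rw [hmg, hρ', hρ', he_det]
    simp only [twEnd, map_sub, map_smul, map_mul, AlgEquiv.apply_symm_apply]

end Fermat.Agent.S56.P3.H793
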